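/-
LSb / Xfer / PushPull  (helper1)

Abstract part of the TRANSFER lemma: for an integral embedding `φ : F → F'` of function fields over
`K` all of whose places have degree `≠ 0` (e.g. `K` algebraically closed), the correspondence
`φ_* φ^*` is multiplication by `[F' : F]`, on divisors and on `Pic⁰`; the pull-back
`φ^* : Pic⁰ F → Pic⁰ F'` commutes with intertwined semilinear automorphisms.
-/
import Mathlib
import Fermat.Prelude.Def_AlgebraicCurve_Correspondence
import Fermat.Agent.S29lib.GH.Intertwine

set_option autoImplicit false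
set_option linter.style.haveILetI false
set_option linter.unusedSectionVars false

noncomputable section

namespace Fermat.Agent.LSb.Xfer

open AlgebraicCurve AlgebraicCurve.SemilinearAut

variable {K F F' : Type*} [Field K] [Field F] [Field F'] [Algebra K F] [Algebra K F']
variable [HasPrincipalDivisors K F'] (φ : F →ₐ[K] F') (hφ : φ.toRingHom.IsIntegral)

/-- `φ_* φ^* (n·v) = [F':F]·n·v` -/
theorem correspondence_self_single (hFI : FundamentalIdentityAlong K φ hφ)
    (hdeg : ∀ v : Place K F, v.deg ≠ 0) (v : Place K F) (n : ℤ) :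
    Divisor.correspondence φ φ hφ hφ (Finsupp.single v n) =
      (finrankAlong K φ : ℤ) • Finsupp.single v n := by
  letI := algebraAlong φ
  haveI := isScalarTower_along φ
  haveI := isIntegral_along φ hφ
  haveI : FundamentalIdentity K F F' := hFI
  show Divisor.pushforward F (Divisor.pullback F' (Finsupp.single v n)) =
    (Module.finrank F F' : ℤ) • Finsupp.single v n
  rw [Divisor.pullback_single, map_sum]
  simp_rw [Divisor.pushforward_single]
  rw [Finset.sum_congr rfl (fun w hw => by rw [Place.mem_fiber.mp hw])]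
  rw [← Finsupp.single_finsetSum, Finsupp.smul_single]
  congr 1
  -- `Σ n e_w f_w = [F':F] n`
  have key := FundamentalIdentity.sum_ramificationIndex_mul_deg (K := K) (F := F) (F' := F') v
  have h1 : ∀ w ∈ v.fiber F', (w.ramificationIndex F : ℤ) * (w.deg : ℤ) =
      (v.deg : ℤ) * ((w.ramificationIndex F : ℤ) * (w.inertiaDeg F : ℤ)) := by
    intro w hw
    have htower : ((w.restrict F).deg : ℤ) * (w.inertiaDeg F : ℤ) = (w.deg : ℤ) := by
      exact_mod_cast congrArg (Nat.cast (R := ℤ)) (w.deg_restrict_mul_inertiaDeg (F := F))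
    rw [Place.mem_fiber.mp hw] at htower
    rw [← htower]; ring
  rw [Finset.sum_congr rfl h1, ← Finset.mul_sum] at key
  have hv : (v.deg : ℤ) ≠ 0 := by exact_mod_cast hdeg v
  have key' : ∑ w ∈ v.fiber F', (w.ramificationIndex F : ℤ) * (w.inertiaDeg F : ℤ) =
      (Module.finrank F F' : ℤ) := by
    apply mul_left_cancel₀ hv
    rw [key]; ring
  rw [smul_eq_mul, ← key', Finset.sum_mul]
  exact Finset.sum_congr rfl fun w _ => by ring

/-- **`φ_* φ^* = [F':F]` on divisors.** -/
theorem correspondence_self (hFI : FundamentalIdentityAlong K φ hφ)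
    (hdeg : ∀ v : Place K F, v.deg ≠ 0) (D : Divisor K F) :
    Divisor.correspondence φ φ hφ hφ D = (finrankAlong K φ : ℤ) • D := by
  induction D using Finsupp.induction_linear with
  | zero => rw [map_zero, smul_zero]
  | add D E hD hE => rw [map_add, hD, hE, smul_add]
  | single v n => exact correspondence_self_single φ hφ hFI hdeg v n

/-- **`φ_* φ^* = [F':F]` on `Pic⁰`.** -/
theorem pic0_correspondence_self (hFI : FundamentalIdentityAlong K φ hφ)
    (hfin : FiniteAlong K φ) (hN : NormFormulaAlong K φ hfin)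
    (hdeg : ∀ v : Place K F, v.deg ≠ 0) (x : Pic0 K F) :
    Pic0.correspondence φ φ hφ hφ hFI hfin hN x = (finrankAlong K φ : ℤ) • x := by
  obtain ⟨D, rfl⟩ := Pic0.mk_surjective x
  rw [Pic0.correspondence_mk]
  have : Pic0.degZeroCorrespondence φ φ hφ hφ hFI D = (finrankAlong K φ : ℤ) • D := by
    apply Subtype.ext
    rw [Pic0.coe_degZeroCorrespondence, correspondence_self φ hφ hFI hdeg]
    rfl
  rw [this]
  rfl

/-! ### Pull-back on `Pic⁰` along `φ` -/

/-- the pull-back `φ^* : Pic⁰ F → Pic⁰ F'` -/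
def pic0PullbackAlong (hFI : FundamentalIdentityAlong K φ hφ) : Pic0 K F →+ Pic0 K F' :=
  letI := algebraAlong φ
  haveI := isScalarTower_along φ
  haveI := isIntegral_along φ hφ
  haveI : FundamentalIdentity K F F' := hFI
  Pic0.pullbackHom F'

theorem pic0PullbackAlong_mk (hFI : FundamentalIdentityAlong K φ hφ)
    (D : Divisor.degZero (K := K) (F := F)) :
    pic0PullbackAlong φ hφ hFI (Pic0.mk D) =
      Pic0.mk ⟨Divisor.pullbackAlong φ hφ (D : Divisor K F),
        Divisor.pullbackAlong_mem_degZero φ hφ hFI D.2⟩ :=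
  rfl

/-- the push-forward `φ_* : Pic⁰ F' → Pic⁰ F` -/
def pic0PushforwardAlong (hfin : FiniteAlong K φ) (hN : NormFormulaAlong K φ hfin) :
    Pic0 K F' →+ Pic0 K F :=
  letI := algebraAlong φ
  haveI := isScalarTower_along φ
  haveI := isIntegral_along φ hφ
  haveI : Module.Finite F F' := hfin
  Pic0.pushforwardHom K F F' hN

theorem pic0PushforwardAlong_mk (hfin : FiniteAlong K φ) (hN : NormFormulaAlong K φ hfin)
    (D : Divisor.degZero (K := K) (F := F')) :
    pic0PushforwardAlong φ hφ hfin hN (Pic0.mk D) =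
      Pic0.mk ⟨Divisor.pushforwardAlong φ hφ (D : Divisor K F'),
        Divisor.pushforwardAlong_mem_degZero φ hφ D.2⟩ :=
  rfl

/-- **`φ_* (φ^* x) = [F':F] x`** -/
theorem pic0PushforwardAlong_pullbackAlong (hFI : FundamentalIdentityAlong K φ hφ)
    (hfin : FiniteAlong K φ) (hN : NormFormulaAlong K φ hfin)
    (hdeg : ∀ v : Place K F, v.deg ≠ 0) (x : Pic0 K F) :
    pic0PushforwardAlong φ hφ hfin hN (pic0PullbackAlong φ hφ hFI x) =
      (finrankAlong K φ : ℤ) • x := by
  rw [← pic0_correspondence_self φ hφ hFI hfin hN hdeg x]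
  obtain ⟨D, rfl⟩ := Pic0.mk_surjective x
  rfl

/-- the kernel of the pull-back is killed by the degree -/
theorem finrankAlong_smul_eq_zero_of_pullback_eq_zero (hFI : FundamentalIdentityAlong K φ hφ)
    (hfin : FiniteAlong K φ) (hN : NormFormulaAlong K φ hfin)
    (hdeg : ∀ v : Place K F, v.deg ≠ 0) {x : Pic0 K F}
    (hx : pic0PullbackAlong φ hφ hFI x = 0) : (finrankAlong K φ : ℤ) • x = 0 := by
  rw [← pic0PushforwardAlong_pullbackAlong φ hφ hFI hfin hN hdeg x, hx, map_zero]

/-- the pull-back commutes with intertwined semilinear automorphisms -/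
theorem pic0PullbackAlong_smul (hFI : FundamentalIdentityAlong K φ hφ)
    {g : SemilinearAut K F} {g' : SemilinearAut K F'}
    (h : IntertwinesAlong φ.toRingHom g g') (x : Pic0 K F) :
    pic0PullbackAlong φ hφ hFI (g • x) = g' • pic0PullbackAlong φ hφ hFI x := by
  obtain ⟨D, rfl⟩ := Pic0.mk_surjective x
  rw [pic0_smul_mk, pic0PullbackAlong_mk, pic0PullbackAlong_mk, pic0_smul_mk]
  refine congrArg Pic0.mk (Subtype.ext ?_)
  show Divisor.pullbackAlong φ hφ ((degZeroSMulHom g D : Divisor.degZero (K := K) (F := F)) :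
    Divisor K F) = ((degZeroSMulHom g' _ : Divisor.degZero (K := K) (F := F')) : Divisor K F')
  rw [coe_degZeroSMulHom, coe_degZeroSMulHom]
  exact Fermat.Agent.S29lib.GH.pullbackAlong_smul φ hφ h _

end Fermat.Agent.LSb.Xfer
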