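/-
LSb / Xfer / Abstract  (helper1)

The abstract TRANSFER lemma: `F ⊆ F'` function fields over `K`, `(g, g')` intertwined semilinear
automorphisms, `p` a prime such that the `p`-power torsion of `Pic⁰ F` is `p`-divisible.  If
`(g' - 1)² = 0` on the `p`-power torsion of `Pic⁰ F'`, then `(g - 1)² = 0` on the `p`-power torsion
of `Pic⁰ F`.
-/
import Mathlib
import Fermat.Agent.LSb.Xfer.PushPull

set_option autoImplicit false
set_option linter.style.haveILetI false
set_option linter.unusedSectionVars false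

noncomputable section

namespace Fermat.Agent.LSb.Xfer

open AlgebraicCurve AlgebraicCurve.SemilinearAut

section Group

variable {G M : Type*} [Monoid G] [AddCommGroup M] [DistribMulAction G M]

/-- `(g - 1)²` as an additive endomorphism -/
def sqOp (g : G) : M →+ M :=
  (DistribSMul.toAddMonoidHom M g).comp (DistribSMul.toAddMonoidHom M g) -
    (DistribSMul.toAddMonoidHom M g + DistribSMul.toAddMonoidHom M g) +
    AddMonoidHom.id M

theorem sqOp_apply (g : G) (x : M) : sqOp g x = g • g • x - (g • x + g • x) + x := rfl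

end Group

variable {K F F' : Type*} [Field K] [Field F] [Field F'] [Algebra K F] [Algebra K F']
variable [HasPrincipalDivisors K F'] (φ : F →ₐ[K] F') (hφ : φ.toRingHom.IsIntegral)

theorem pic0PullbackAlong_sqOp (hFI : FundamentalIdentityAlong K φ hφ)
    {g : SemilinearAut K F} {g' : SemilinearAut K F'}
    (h : IntertwinesAlong φ.toRingHom g g') (x : Pic0 K F) :
    pic0PullbackAlong φ hφ hFI (sqOp g x) = sqOp g' (pic0PullbackAlong φ hφ hFI x) := by
  rw [sqOp_apply, sqOp_apply, map_add, map_sub, map_add, pic0PullbackAlong_smul φ hφ hFI h,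
    pic0PullbackAlong_smul φ hφ hFI h]

/-- iterated divisibility -/
theorem exists_pow_smul_eq {M : Type*} [AddCommGroup M] {p : ℕ}
    (hdiv : ∀ (k : ℕ) (x : M), ((p ^ k : ℕ) : ℤ) • x = 0 →
      ∃ y : M, ((p ^ (k + 1) : ℕ) : ℤ) • y = 0 ∧ (p : ℤ) • y = x)
    (m k : ℕ) (x : M) (hx : ((p ^ k : ℕ) : ℤ) • x = 0) :
    ∃ y : M, ((p ^ (k + m) : ℕ) : ℤ) • y = 0 ∧ ((p ^ m : ℕ) : ℤ) • y = x := by
  induction m generalizing k x with
  | zero => exact ⟨x, by simpa using hx, by simp⟩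
  | succ m ih =>
    obtain ⟨y, hy0, hy⟩ := hdiv k x hx
    obtain ⟨z, hz0, hz⟩ := ih (k + 1) y hy0
    refine ⟨z, ?_, ?_⟩
    · rw [show k + (m + 1) = k + 1 + m by ring]; exact hz0
    · rw [pow_succ, Nat.cast_mul, mul_comm, mul_smul, hz, hy]

/-- **abstract TRANSFER.** -/
theorem sqOp_eq_zero_of_pullback (hFI : FundamentalIdentityAlong K φ hφ)
    (hfin : FiniteAlong K φ) (hN : NormFormulaAlong K φ hfin)
    (hdeg : ∀ v : Place K F, v.deg ≠ 0)
    {g : SemilinearAut K F} {g' : SemilinearAut K F'}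
    (h : IntertwinesAlong φ.toRingHom g g')
    {p : ℕ} (hp : p.Prime) (hd : finrankAlong K φ ≠ 0)
    (hdiv : ∀ (k : ℕ) (x : Pic0 K F), ((p ^ k : ℕ) : ℤ) • x = 0 →
      ∃ y : Pic0 K F, ((p ^ (k + 1) : ℕ) : ℤ) • y = 0 ∧ (p : ℤ) • y = x)
    (hU : ∀ (k : ℕ) (y : Pic0 K F'), ((p ^ k : ℕ) : ℤ) • y = 0 → sqOp g' y = 0)
    (k : ℕ) (x : Pic0 K F) (hx : ((p ^ k : ℕ) : ℤ) • x = 0) : sqOp g x = 0 := by
  obtain ⟨m, d', hd', hdd⟩ := Nat.exists_eq_pow_mul_and_not_dvd hd p hp.ne_one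
  obtain ⟨y, hy0, hy⟩ := exists_pow_smul_eq hdiv m k x hx
  -- the pull-back of `y` is `p`-power torsion
  have h1 : ((p ^ (k + m) : ℕ) : ℤ) • pic0PullbackAlong φ hφ hFI y = 0 := by
    rw [← map_zsmul, hy0, map_zero]
  have h2 : pic0PullbackAlong φ hφ hFI (sqOp g y) = 0 := by
    rw [pic0PullbackAlong_sqOp φ hφ hFI h]
    exact hU (k + m) _ h1
  have h3 : (finrankAlong K φ : ℤ) • sqOp g y = 0 :=
    finrankAlong_smul_eq_zero_of_pullback_eq_zero φ hφ hFI hfin hN hdeg h2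
  -- `d' • sqOp g x = 0`
  have h4 : (d' : ℤ) • sqOp g x = 0 := by
    rw [← hy, map_zsmul, smul_smul, ← h3, hdd]
    push_cast
    rw [mul_comm]
  -- `p^k • sqOp g x = 0`
  have h5 : ((p ^ k : ℕ) : ℤ) • sqOp g x = 0 := by rw [← map_zsmul, hx, map_zero]
  -- coprimality
  have hcop : IsCoprime (d' : ℤ) ((p ^ k : ℕ) : ℤ) := by
    rw [Int.isCoprime_iff_gcd_eq_one]
    show Nat.gcd (Int.natAbs d') (Int.natAbs ((p ^ k : ℕ) : ℤ)) = 1
    rw [Int.natAbs_natCast, Int.natAbs_natCast]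
    exact Nat.Coprime.pow_right k ((Nat.Prime.coprime_iff_not_dvd hp).2 hd').symm
  obtain ⟨a, b, hab⟩ := hcop
  calc sqOp g x = (1 : ℤ) • sqOp g x := (one_smul _ _).symm
    _ = (a * d' + b * ((p ^ k : ℕ) : ℤ)) • sqOp g x := by rw [hab]
    _ = 0 := by rw [add_zsmul, mul_zsmul, mul_zsmul, h4, h5, zsmul_zero, zsmul_zero, add_zero]

end Fermat.Agent.LSb.Xfer
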