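/-
LSb / Xfer / Modular  (helper1)

TRANSFER for the modular Jacobians: for `σ ∈ G_ℚ` and a prime `p`, if `(σ - 1)² = 0` on the
`p`-power torsion of `J₀(N')` and `N ∣ N'`, then `(σ - 1)² = 0` on the `p`-power torsion of `J₀(N)`.
Inputs (all on main): the degeneracy map `α : FBar N → FBar (N ℓ)` with its Hecke inputs
(`S37lib/HeckeInst`), its Galois equivariance (`S29lib/GH`), and the `p`-divisibility of the
`p`-power torsion of `J₀(N)`, read off the Kummer comparison `S29lib.Z.compStatement`.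
-/
import Mathlib
import Fermat.Agent.LSb.Xfer.Abstract
import Fermat.Agent.S29lib.GH.HeckeGalois
import Fermat.Agent.S29lib.Z.Final
import Fermat.Agent.S34lib.Unip.Interface

set_option autoImplicit false
set_option linter.style.haveILetI false
set_option linter.unusedSectionVars false

noncomputable section

namespace Fermat.Agent.LSb.Xfer

open AlgebraicCurve ModularCurve AlgebraicCurve.SemilinearAut
open Fermat.Agent.S29lib Fermat.Agent.S37lib.HeckeInst Fermat.Agent.S34lib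

local notation "Qb" => AlgebraicClosure ℚ
local notation "GQ" => (AlgebraicClosure ℚ ≃ₐ[ℚ] AlgebraicClosure ℚ)

/-- **`p`-divisibility of the `p`-power torsion**, from the Kummer comparison. -/
theorem exists_smul_eq_of_comparisonData {N p : ℕ} [NeZero N] (C : ComparisonData N p)
    (k : ℕ) (x : JZero N) (hx : x ∈ Tors N (p ^ k)) :
    ∃ y : JZero N, y ∈ Tors N (p ^ (k + 1)) ∧ (p : ℤ) • y = x := by
  have hsurj : Function.Surjective
      (ZMod.castHom (pow_dvd_pow p (Nat.le_succ k)) (ZMod (p ^ k))) :=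
    ZMod.ringHom_surjective _
  choose w hw using fun i => hsurj (C.κ k ⟨x, hx⟩ i)
  refine ⟨((C.κ (k + 1)).symm w : Tors N (p ^ (k + 1))), Subtype.property _, ?_⟩
  have h := C.κ_compat k ((C.κ (k + 1)).symm w)
  rw [AddEquiv.apply_symm_apply] at h
  have h2 : C.κ k ⟨(p : ℤ) • (((C.κ (k + 1)).symm w : Tors N (p ^ (k + 1))) : JZero N),
      zsmul_mem_Tors (by rw [← pow_succ]; exact Subtype.property _)⟩ = C.κ k ⟨x, hx⟩ := by
    rw [h]; funext i; exact hw i
  exact congrArg Subtype.val ((C.κ k).injective h2)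

theorem exists_smul_eq {N p : ℕ} [NeZero N] (hp : p.Prime) (k : ℕ) (x : JZero N)
    (hx : ((p ^ k : ℕ) : ℤ) • x = 0) :
    ∃ y : JZero N, ((p ^ (k + 1) : ℕ) : ℤ) • y = 0 ∧ (p : ℤ) • y = x := by
  obtain ⟨C, -⟩ := Z.compStatement N p hp
  obtain ⟨y, hy, hyx⟩ := exists_smul_eq_of_comparisonData C k x
    ((Submodule.mem_torsionBy_iff _ _).2 hx)
  exact ⟨y, (Submodule.mem_torsionBy_iff _ _).1 hy, hyx⟩

theorem unipAt_iff {N p : ℕ} [NeZero N] (σ : GQ) :
    UnipAt N p σ ↔ ∀ (k : ℕ) (x : JZero N), ((p ^ k : ℕ) : ℤ) • x = 0 →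
      sqOp (GH.galAutBar N σ) x = 0 := by
  refine forall_congr' fun k => forall_congr' fun x => ?_
  rw [Submodule.mem_torsionBy_iff]
  rfl

/-- **TRANSFER, one step**: from level `N ℓ` to level `N`. -/
theorem unipAt_of_mul (N ℓ p : ℕ) [NeZero N] [NeZero ℓ] (hp : p.Prime) (σ : GQ)
    (h : UnipAt (N * ℓ) p σ) : UnipAt N p σ := by
  haveI := hasPrincipalDivisors_FB (N * ℓ)
  rw [unipAt_iff] at h ⊢
  have hfin := finiteAlong_alpha N ℓ
  have hd : finrankAlong Qb (heckeAlphaBar Qb N ℓ) ≠ 0 := by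
    letI := algebraAlong (heckeAlphaBar Qb N ℓ)
    haveI : Module.Finite (FB N) (FB (N * ℓ)) := hfin
    exact (Module.finrank_pos (R := FB N) (M := FB (N * ℓ))).ne'
  exact sqOp_eq_zero_of_pullback (heckeAlphaBar Qb N ℓ) (heckeAlphaBarIntegral N ℓ)
    (fundamentalIdentityAlong_alpha N ℓ) hfin (normFormulaAlong_alpha N ℓ)
    (GH.deg_ne_zero_FB N) (GH.intertwines_alpha N ℓ σ) hp hd
    (fun k x hx => exists_smul_eq hp k x hx) h

theorem unipAt_of_eq_mul {p : ℕ} (hp : p.Prime) (σ : GQ) (m : ℕ) :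
    ∀ (N N' : ℕ) [NeZero N] [NeZero N'], N' = N * m → UnipAt N' p σ → UnipAt N p σ := by
  induction m using Nat.strong_induction_on with
  | _ m ih =>
    intro N N' _ _ hN' h
    rcases eq_or_ne m 1 with rfl | hm1
    · obtain rfl : N' = N := by rw [hN', mul_one]
      exact h
    · obtain ⟨ℓ, hℓ, m', rfl⟩ := Nat.exists_prime_and_dvd hm1
      have hm0 : ℓ * m' ≠ 0 := by
        rintro h0; exact NeZero.ne N' (by rw [hN', h0, mul_zero])
      have hm'0 : m' ≠ 0 := right_ne_zero_of_mul hm0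
      haveI : NeZero ℓ := ⟨hℓ.ne_zero⟩
      haveI : NeZero (N * m') := ⟨mul_ne_zero (NeZero.ne N) hm'0⟩
      have hlt : m' < ℓ * m' := by
        have := hℓ.two_le
        have := Nat.pos_of_ne_zero hm'0
        nlinarith
      refine ih m' hlt N (N * m') rfl ?_
      haveI : NeZero (N * m' * ℓ) := ⟨mul_ne_zero (NeZero.ne _) hℓ.ne_zero⟩
      apply unipAt_of_mul (N * m') ℓ p hp σ
      obtain rfl : N' = N * m' * ℓ := by rw [hN']; ring
      exact h

/-- **TRANSFER**: from level `N'` to any divisor `N` of `N'`. -/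
theorem unipAt_of_dvd {N N' p : ℕ} [NeZero N] [NeZero N'] (hN : N ∣ N') (hp : p.Prime) (σ : GQ)
    (h : UnipAt N' p σ) : UnipAt N p σ := by
  obtain ⟨m, hm⟩ := hN
  exact unipAt_of_eq_mul hp σ m N N' hm h

end Fermat.Agent.LSb.Xfer
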