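/-
LSb / Xfer / Assemble  (helper1)

Final assembly on the Jacobian side: (U) on the torsion of `J₀(N)` at every prime `q ∥ N`, `q ≠ p`,
from (U) at the SPECIAL levels `N = M q` (`q ∤ M`) with `q ≥ 5`, or `q = 2 ∧ 9 ∣ M`, or
`q = 3 ∧ 4 ∣ M` (the levels where the node count of the reduction of `X₀(M q)` mod `q` is proved),
by TRANSFER (`Xfer.unipAt_of_dvd`).
-/
import Mathlib
import Fermat.Agent.LSb.Xfer.Modular
import Fermat.Prelude.Def_FLTPrelim_Ramification

set_option autoImplicit false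
set_option linter.style.haveILetI false
set_option linter.unusedSectionVars false

noncomputable section

namespace Fermat.Agent.LSb.Xfer

open ModularCurve Fermat.Agent.S34lib

local notation "Qb" => AlgebraicClosure ℚ
local notation "GQ" => (AlgebraicClosure ℚ ≃ₐ[ℚ] AlgebraicClosure ℚ)

/-- the levels `M q` at which (U) is proved directly -/
def SpecialLevel (M q : ℕ) : Prop := 5 ≤ q ∨ (q = 2 ∧ 9 ∣ M) ∨ (q = 3 ∧ 4 ∣ M)

/-- (U) at the inertia groups over `q`, level `N`, on `p`-power torsion -/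
def UnipAtPrime (N p q : ℕ) [NeZero N] : Prop :=
  ∀ A : ValuationSubring (AlgebraicClosure ℚ), A.LiesOverPrime q →
    ∀ σ ∈ A.inertiaSubgroupIn ℚ, UnipAt N p σ

theorem unipAtPrime_of_dvd {N N' p q : ℕ} [NeZero N] [NeZero N'] (hN : N ∣ N') (hp : p.Prime)
    (h : UnipAtPrime N' p q) : UnipAtPrime N p q :=
  fun A hA σ hσ => unipAt_of_dvd hN hp σ (h A hA σ hσ)

theorem unipAtPrime_of_eq {N N' p q : ℕ} [NeZero N] [NeZero N'] (hN : N = N')
    (h : UnipAtPrime N' p q) : UnipAtPrime N p q := by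
  subst hN
  exact h

/-- **Assembly**: (U) at the special levels implies (U) at all levels. -/
theorem unipTors_of_special
    (H : ∀ (M q p : ℕ) [NeZero (M * q)], q.Prime → ¬ q ∣ M → SpecialLevel M q → p.Prime → p ≠ q →
      UnipAtPrime (M * q) p q)
    (N p : ℕ) [NeZero N] (hp : p.Prime) : UnipTors N p := by
  intro q hq hqp hqN hq2 A hA σ hσ
  obtain ⟨M, hM⟩ := hqN
  have hM0 : M ≠ 0 := by rintro rfl; exact NeZero.ne N (by rw [hM, mul_zero])
  have hqM : ¬ q ∣ M := by
    rintro ⟨M', rfl⟩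
    exact hq2 ⟨M', by rw [hM]; ring⟩
  -- it suffices to find a multiple `M'` of `M` with `q ∤ M'` and `M' q` special
  suffices hex : ∃ M' : ℕ, M ∣ M' ∧ M' ≠ 0 ∧ ¬ q ∣ M' ∧ SpecialLevel M' q by
    obtain ⟨M', hMM', hM'0, hqM', hsp⟩ := hex
    haveI : NeZero (M' * q) := ⟨mul_ne_zero hM'0 hq.ne_zero⟩
    have h1 : UnipAtPrime (M' * q) p q := H M' q p hq hqM' hsp hp hqp.symm
    have h2 : UnipAtPrime N p q :=
      unipAtPrime_of_dvd (by rw [hM, mul_comm]; exact mul_dvd_mul_right hMM' q) hp h1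
    exact h2 A hA σ hσ
  by_cases h5 : 5 ≤ q
  · exact ⟨M, dvd_rfl, hM0, hqM, Or.inl h5⟩
  · have hq23 : q = 2 ∨ q = 3 := by
      have h2 := hq.two_le
      have : q ≠ 4 := by rintro rfl; exact absurd hq (by norm_num)
      omega
    rcases hq23 with rfl | rfl
    · -- `q = 2`: make `9 ∣ M'`, keeping `M'` odd
      refine ⟨9 * M, Dvd.intro_left 9 rfl, mul_ne_zero (by norm_num) hM0, ?_,
        Or.inr (Or.inl ⟨rfl, Dvd.intro M rfl⟩)⟩
      intro h
      rcases (Nat.Prime.dvd_mul Nat.prime_two).1 h with h | h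
      · norm_num at h
      · exact hqM h
    · -- `q = 3`: make `4 ∣ M'`, keeping `3 ∤ M'`
      refine ⟨4 * M, Dvd.intro_left 4 rfl, mul_ne_zero (by norm_num) hM0, ?_,
        Or.inr (Or.inr ⟨rfl, Dvd.intro M rfl⟩)⟩
      intro h
      rcases (Nat.Prime.dvd_mul Nat.prime_three).1 h with h | h
      · norm_num at h
      · exact hqM h

end Fermat.Agent.LSb.Xfer
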